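import Fermat.Agent.S35.G.SpecLevel
import Fermat.Agent.A2.T1.H669.T1Core
import Fermat.Agent.S37.H818.ModularNorm
import Fermat.Agent.S37.H88.KronCharpoly
import Fermat.Prelude.Thm_ModularCurve_coeffMap_qExpand

/-!
# S35, piece (G'), leaf T1F (helper169): descent of the Kummer form to a finite level

`t1F : T1FStatement` (frozen in `Fermat/Agent/S35/G/SpecLevel.lean`, architect helper450):

  `IFsStatement → (∀ A E, LevelFrobAt A E M q m) → KummerFrobAt M q m`.

Proof (pattern of `A2/T1/H669`): `f ∈ F̄_{Mq}`, `N_α f = c₁ g₁ ^ m`, `N_β f = c₂ g₂ ^ m`.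
All of `f`, `g₁`, `g₂`, `c₁`, `c₂` are defined over every intermediate field containing a finite
set `S` (`exists_finset_descent`); IFs gives a good level `E ⊇ S` stable under the Frobenius lift
`s`.  Norms commute with the coefficient extension `iota : F_E → F̄`
(`iota_normAlong`, from `S37.H818.norm_square`: equal degrees `q + 1` and
`F̄_{Mq} = F̄_M · iota (F_E(Mq))`), `m ∣ div` descends (`divisibleDiv_of_ord`), the level statement
applies, and `iota` transports the conclusion back (`iota_frobPoly`).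

Reusable: `iota_alpha`, `iota_beta`, `adjoin_range_iota_eq_top`, `iota_normAlong`,
`iota_normAlong_alpha`, `iota_normAlong_beta`, `normPow_descent`, `iota_frobSub`, `iota_frobPoly`.
-/

set_option autoImplicit false
set_option linter.style.haveILetI false
set_option linter.unusedSectionVars false
set_option synthInstance.maxHeartbeats 400000
set_option maxHeartbeats 1600000

noncomputable section

namespace Fermat.Agent.S35.G.H169

open ModularCurve AlgebraicCurve
open Fermat.Agent.A2.T1.H669 (iota iota_injective iota_ne_zero iota_algebraMap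
  iota_arithmeticRingAut exists_finset_descent divisibleDiv_of_ord)

variable (E : IntermediateField ℚ Qb)

/-! ## `iota` and the degeneracy maps -/

section Deg

variable (M q : ℕ) [NeZero M] [NeZero q]

/-- `iota` commutes with `α`. -/
theorem iota_alpha (y : ↥(laurentBaseChange E (modularFunctionFieldFull M))) :
    iota E (modularFunctionFieldFull (M * q)) (heckeAlphaBar E M q y) =
      heckeAlphaBar Qb M q (iota E (modularFunctionFieldFull M) y) := by
  apply Subtype.ext
  rw [Fermat.Agent.A2.T1.H669.coe_iota, coe_heckeAlphaBar, coe_heckeAlphaBar,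
    Fermat.Agent.A2.T1.H669.coe_iota]

/-- `iota` commutes with `β`. -/
theorem iota_beta (y : ↥(laurentBaseChange E (modularFunctionFieldFull M))) :
    iota E (modularFunctionFieldFull (M * q)) (heckeBetaBar E M q y) =
      heckeBetaBar Qb M q (iota E (modularFunctionFieldFull M) y) := by
  apply Subtype.ext
  show coeffMap (algebraMap E Qb) (qExpand E q (y : LaurentSeries E)) =
    qExpand Qb q (coeffMap (algebraMap E Qb) (y : LaurentSeries E))
  exact ModularCurve.coeffMap_qExpand (algebraMap E Qb) q (y : LaurentSeries E)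

end Deg

/-! ## Generation and norm compatibility -/

section Norm

variable (F₀ F₁ : IntermediateField ℚ (LaurentSeries ℚ))

/-- `F̄₁` is generated over `F̄₀` (along any finite `ℚ̄`-algebra map `a'`) by `iota (F_E)`. -/
theorem adjoin_range_iota_eq_top
    (a' : ↥(laurentBaseChange Qb F₀) →ₐ[Qb] ↥(laurentBaseChange Qb F₁))
    (hfin : FiniteAlong Qb a') :
    (letI := algebraAlong a'
     Algebra.adjoin ↥(laurentBaseChange Qb F₀) (Set.range (iota E F₁))) = ⊤ := by
  letI := algebraAlong a'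
  haveI : Module.Finite ↥(laurentBaseChange Qb F₀) ↥(laurentBaseChange Qb F₁) := hfin
  haveI : Algebra.IsAlgebraic ↥(laurentBaseChange Qb F₀) ↥(laurentBaseChange Qb F₁) :=
    Algebra.IsAlgebraic.of_finite _ _
  have halg : ∀ x ∈ Set.range (iota E F₁),
      IsAlgebraic ↥(laurentBaseChange Qb F₀) x :=
    fun x _ => Algebra.IsAlgebraic.isAlgebraic x
  rw [← IntermediateField.adjoin_toSubalgebra_of_isAlgebraic halg]
  have htop : IntermediateField.adjoin ↥(laurentBaseChange Qb F₀) (Set.range (iota E F₁)) = ⊤ := by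
    rw [eq_top_iff]
    rintro ⟨z, hz⟩ -
    have key : ∃ w : ↥(laurentBaseChange Qb F₁),
        w ∈ IntermediateField.adjoin ↥(laurentBaseChange Qb F₀) (Set.range (iota E F₁)) ∧
        (w : LaurentSeries Qb) = z := by
      have hz2 := hz
      rw [mem_laurentBaseChange_iff] at hz2
      induction hz2 using Subfield.closure_induction with
      | mem y hy =>
          rcases hy with ⟨a, rfl⟩ | ⟨z₀, hz₀, rfl⟩
          · refine ⟨algebraMap ↥(laurentBaseChange Qb F₀) ↥(laurentBaseChange Qb F₁)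
              (algebraMap Qb ↥(laurentBaseChange Qb F₀) a),
              IntermediateField.algebraMap_mem _ _, ?_⟩
            have h1 : algebraMap ↥(laurentBaseChange Qb F₀) ↥(laurentBaseChange Qb F₁)
                (algebraMap Qb ↥(laurentBaseChange Qb F₀) a) =
                algebraMap Qb ↥(laurentBaseChange Qb F₁) a := a'.commutes a
            rw [h1]
            rfl
          · refine ⟨iota E F₁ ⟨coeffEmb E z₀, coeffEmb_mem_laurentBaseChange E hz₀⟩,
              IntermediateField.subset_adjoin _ _ ⟨_, rfl⟩, ?_⟩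
            exact Fermat.Agent.S18.H602.coeffMap_coeffEmb' (algebraMap E Qb) z₀
      | one => exact ⟨1, one_mem _, rfl⟩
      | add x y hx' hy' hx hy =>
          obtain ⟨w₁, hw₁, rfl⟩ := hx ((mem_laurentBaseChange_iff).2 hx')
          obtain ⟨w₂, hw₂, rfl⟩ := hy ((mem_laurentBaseChange_iff).2 hy')
          exact ⟨w₁ + w₂, add_mem hw₁ hw₂, rfl⟩
      | neg x hx' hx =>
          obtain ⟨w₁, hw₁, rfl⟩ := hx ((mem_laurentBaseChange_iff).2 hx')
          exact ⟨-w₁, neg_mem hw₁, rfl⟩
      | inv x hx' hx =>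
          obtain ⟨w₁, hw₁, rfl⟩ := hx ((mem_laurentBaseChange_iff).2 hx')
          exact ⟨w₁⁻¹, inv_mem hw₁, IntermediateField.coe_inv _ _⟩
      | mul x y hx' hy' hx hy =>
          obtain ⟨w₁, hw₁, rfl⟩ := hx ((mem_laurentBaseChange_iff).2 hx')
          obtain ⟨w₂, hw₂, rfl⟩ := hy ((mem_laurentBaseChange_iff).2 hy')
          exact ⟨w₁ * w₂, mul_mem hw₁ hw₂, rfl⟩
    obtain ⟨w, hw, hwz⟩ := key
    have hwz' : w = ⟨z, hz⟩ := Subtype.ext hwz
    rw [← hwz']
    exact hw
  rw [htop]
  rfl

/-- **Norms commute with the coefficient extension** `iota : F_E → F̄`, for a commutative square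
of finite maps of equal degree. -/
theorem iota_normAlong
    (a : ↥(laurentBaseChange E F₀) →ₐ[E] ↥(laurentBaseChange E F₁))
    (a' : ↥(laurentBaseChange Qb F₀) →ₐ[Qb] ↥(laurentBaseChange Qb F₁))
    (hsq : ∀ x, iota E F₁ (a x) = a' (iota E F₀ x))
    (hfin : FiniteAlong E a) (hfin' : FiniteAlong Qb a')
    (hdeg : finrankAlong Qb a' = finrankAlong E a)
    (y : ↥(laurentBaseChange E F₁)) :
    iota E F₀ (Fermat.Agent.S29.H395.normAlong a y) =
      Fermat.Agent.S29.H395.normAlong a' (iota E F₁ y) := by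
  have hgen := adjoin_range_iota_eq_top E F₀ F₁ a' hfin'
  unfold Fermat.Agent.S29.H395.normAlong
  letI := algebraAlong a
  letI := algebraAlong a'
  haveI : Module.Finite ↥(laurentBaseChange E F₀) ↥(laurentBaseChange E F₁) := hfin
  haveI : Module.Finite ↥(laurentBaseChange Qb F₀) ↥(laurentBaseChange Qb F₁) := hfin'
  exact (Fermat.Agent.S37.H818.norm_square (iota E F₀) (iota E F₁) hsq hdeg hgen y).symm

end Norm

section NormDeg

variable (M q : ℕ) [NeZero M] [NeZero q]

theorem finiteAlong_of_finrankAlong_pos {K F F' : Type*} [Field K] [Field F] [Field F']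
    [Algebra K F] [Algebra K F'] (φ : F →ₐ[K] F') (h : 0 < finrankAlong K φ) :
    FiniteAlong K φ := by
  unfold FiniteAlong
  unfold finrankAlong at h
  letI := algebraAlong φ
  exact Module.finite_of_finrank_pos h

/-- Norm compatibility for `α`. -/
theorem iota_normAlong_alpha (hq : q.Prime) (hqM : ¬ q ∣ M)
    (y : ↥(laurentBaseChange E (modularFunctionFieldFull (M * q)))) :
    iota E (modularFunctionFieldFull M)
        (Fermat.Agent.S29.H395.normAlong (heckeAlphaBar E M q) y) =
      Fermat.Agent.S29.H395.normAlong (heckeAlphaBar Qb M q)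
        (iota E (modularFunctionFieldFull (M * q)) y) := by
  have h1 : finrankAlong E (heckeAlphaBar E M q) = q + 1 :=
    Fermat.Agent.S37.H818.finrankAlong_heckeAlphaBar (L := E) M q hq hqM
  have h2 : finrankAlong Qb (heckeAlphaBar Qb M q) = q + 1 :=
    Fermat.Agent.S37.H818.finrankAlong_heckeAlphaBar (L := Qb) M q hq hqM
  exact iota_normAlong E _ _ (heckeAlphaBar E M q) (heckeAlphaBar Qb M q)
    (iota_alpha E M q)
    (finiteAlong_of_finrankAlong_pos _ (by rw [h1]; exact Nat.succ_pos _))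
    (finiteAlong_of_finrankAlong_pos _ (by rw [h2]; exact Nat.succ_pos _))
    (by rw [h1, h2]) y

/-- Norm compatibility for `β`. -/
theorem iota_normAlong_beta (hq : q.Prime) (hqM : ¬ q ∣ M)
    (y : ↥(laurentBaseChange E (modularFunctionFieldFull (M * q)))) :
    iota E (modularFunctionFieldFull M)
        (Fermat.Agent.S29.H395.normAlong (heckeBetaBar E M q) y) =
      Fermat.Agent.S29.H395.normAlong (heckeBetaBar Qb M q)
        (iota E (modularFunctionFieldFull (M * q)) y) := by
  have h1 : finrankAlong E (heckeBetaBar E M q) = q + 1 :=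
    Fermat.Agent.S37.H88.finrankAlong_heckeBetaBar (L := E) hq hqM
  have h2 : finrankAlong Qb (heckeBetaBar Qb M q) = q + 1 :=
    Fermat.Agent.S37.H88.finrankAlong_heckeBetaBar (L := Qb) hq hqM
  exact iota_normAlong E _ _ (heckeBetaBar E M q) (heckeBetaBar Qb M q)
    (iota_beta E M q)
    (finiteAlong_of_finrankAlong_pos _ (by rw [h1]; exact Nat.succ_pos _))
    (finiteAlong_of_finrankAlong_pos _ (by rw [h2]; exact Nat.succ_pos _))
    (by rw [h1, h2]) y

/-- Descent of `NormPow` along `iota`, for a square with norm compatibility. -/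
theorem normPow_descent (F₀ F₁ : IntermediateField ℚ (LaurentSeries ℚ))
    (a : ↥(laurentBaseChange E F₀) →ₐ[E] ↥(laurentBaseChange E F₁))
    (a' : ↥(laurentBaseChange Qb F₀) →ₐ[Qb] ↥(laurentBaseChange Qb F₁))
    (hnorm : ∀ y, iota E F₀ (Fermat.Agent.S29.H395.normAlong a y) =
      Fermat.Agent.S29.H395.normAlong a' (iota E F₁ y))
    (m : ℕ) (y : ↥(laurentBaseChange E F₁))
    (c : Qb) (hc : c ∈ E) (g : ↥(laurentBaseChange E F₀))
    (h : Fermat.Agent.S29.H395.normAlong a' (iota E F₁ y) =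
      algebraMap Qb ↥(laurentBaseChange Qb F₀) c * (iota E F₀ g) ^ m) :
    NormPow a m y := by
  refine ⟨⟨c, hc⟩, g, ?_⟩
  apply iota_injective E F₀
  rw [hnorm, h, map_mul, map_pow, iota_algebraMap]
  rfl

end NormDeg

/-! ## Transport of the Frobenius polynomial -/

section Frob

variable (F₀ : IntermediateField ℚ (LaurentSeries ℚ))

theorem iota_frobSub (φE : ↥(laurentBaseChange E F₀) ≃+* ↥(laurentBaseChange E F₀))
    (φ : ↥(laurentBaseChange Qb F₀) ≃+* ↥(laurentBaseChange Qb F₀))
    (hφ : ∀ x, iota E F₀ (φE x) = φ (iota E F₀ x)) (Q : ℕ)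
    (y : ↥(laurentBaseChange E F₀)) :
    iota E F₀ (frobSub φE Q y) = frobSub φ Q (iota E F₀ y) := by
  unfold frobSub
  rw [map_mul, map_inv₀, map_pow, hφ]

theorem iota_frobPoly (φE : ↥(laurentBaseChange E F₀) ≃+* ↥(laurentBaseChange E F₀))
    (φ : ↥(laurentBaseChange Qb F₀) ≃+* ↥(laurentBaseChange Qb F₀))
    (hφ : ∀ x, iota E F₀ (φE x) = φ (iota E F₀ x)) (Q : ℕ)
    (y : ↥(laurentBaseChange E F₀)) :
    iota E F₀ (frobPoly φE Q y) = frobPoly φ Q (iota E F₀ y) := by
  unfold frobPoly
  rw [iota_frobSub E F₀ φE φ hφ, iota_frobSub E F₀ φE φ hφ, iota_frobSub E F₀ φE φ hφ]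

/-- `iota` intertwines `ψ_E = σ_E(s)²` and `σ(s²)`. -/
theorem iota_psiE (N : ℕ) (s : Qb ≃ₐ[ℚ] Qb) (hs : StableUnder E s)
    (x : ↥(laurentBaseChange E (modularFunctionFieldFull N))) :
    iota E (modularFunctionFieldFull N) (psiE E N s hs x) =
      actBar N (s * s) (iota E (modularFunctionFieldFull N) x) :=
  iota_arithmeticRingAut E (modularFunctionFieldFull N) (s * s)
    (Fermat.Agent.A2.Mod.resE E s hs * Fermat.Agent.A2.Mod.resE E s hs) (fun _ => rfl) x

end Frob

/-! ## T1F -/

/-- **T1F.** -/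
theorem t1F : T1FStatement := by
  intro M q m _ _ hq hqM hm hqm hIF hLevel A hA s hs f hf hdiv hNα hNβ
  classical
  obtain ⟨c₁, g₁, h₁⟩ := hNα
  obtain ⟨c₂, g₂, h₂⟩ := hNβ
  obtain ⟨Sf, hSf⟩ := exists_finset_descent (modularFunctionFieldFull (M * q)) f
  obtain ⟨S₁, hS₁⟩ := exists_finset_descent (modularFunctionFieldFull M) g₁
  obtain ⟨S₂, hS₂⟩ := exists_finset_descent (modularFunctionFieldFull M) g₂
  obtain ⟨E, hSE, hE, hsE⟩ :=
    hIF q hq A hA s hs.mem_decompositionSubgroup (Sf ∪ S₁ ∪ S₂ ∪ {c₁, c₂})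
  have hSfE : ∀ x ∈ Sf, x ∈ E := fun x hx => hSE x (by simp [hx])
  have hS₁E : ∀ x ∈ S₁, x ∈ E := fun x hx => hSE x (by simp [hx])
  have hS₂E : ∀ x ∈ S₂, x ∈ E := fun x hx => hSE x (by simp [hx])
  have hc₁E : c₁ ∈ E := hSE c₁ (by simp)
  have hc₂E : c₂ ∈ E := hSE c₂ (by simp)
  obtain ⟨y, hy⟩ := hSf E hSfE
  obtain ⟨y₁, hy₁⟩ := hS₁ E hS₁E
  obtain ⟨y₂, hy₂⟩ := hS₂ E hS₂E
  have hy0 : y ≠ 0 := by
    rintro rfl
    exact hf (by rw [← hy, map_zero])
  have hdd : Fermat.Agent.A2.DivisibleDiv E m y :=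
    divisibleDiv_of_ord E (modularFunctionFieldFull (M * q)) m y hy0
      (fun v => by rw [hy]; exact hdiv v)
  have hNαE : NormPow (Fermat.Agent.A2.Mod.αE E M q) m y :=
    normPow_descent E _ _ (heckeAlphaBar E M q) (heckeAlphaBar Qb M q)
      (iota_normAlong_alpha E M q hq hqM) m y c₁ hc₁E y₁ (by rw [hy, hy₁]; exact h₁)
  have hNβE : NormPow (Fermat.Agent.A2.Mod.βE E M q) m y :=
    normPow_descent E _ _ (heckeBetaBar E M q) (heckeBetaBar Qb M q)
      (iota_normAlong_beta E M q hq hqM) m y c₂ hc₂E y₂ (by rw [hy, hy₂]; exact h₂)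
  obtain ⟨h, hh0, hh⟩ := hLevel A E hA hE s hsE hs y hy0 hdd hNαE hNβE
  refine ⟨1, iota E (modularFunctionFieldFull (M * q)) h, one_ne_zero, ?_⟩
  have key := congrArg (iota E (modularFunctionFieldFull (M * q))) hh
  rw [iota_frobPoly E (modularFunctionFieldFull (M * q)) (psiE E (M * q) s hsE)
    (actBar (M * q) (s * s)) (iota_psiE E (M * q) s hsE), hy, map_pow] at key
  rw [key, map_one, one_mul]

end Fermat.Agent.S35.G.H169

end
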